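/-
Row 37 (S43), block E0/O, abstract layer (contract of helper98; proofs helper186).
**A1** `NodeSep` (CRT in a common chart) and **A2** `NodeAway`, with the small API used by the later nodes.
-/
import Fermat.Agent.S43.E0.O.Contract
import Fermat.Agent.S36.BP.Rad

set_option autoImplicit false

noncomputable section

namespace Fermat.Agent.S43.E0.O

open Fermat.Agent.S18 Fermat.Agent.S36.BP Fermat.Agent.S44

section Api

variable {K₀ F : Type*} [Field K₀] [Field F] [Algebra K₀ F]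

theorem IsRegP.isPt {A₀ : ValuationSubring K₀} {q : ℕ} {V : Fin 2 → ValuationSubring F}
    {R : Subring F} (h : IsRegP A₀ q V R) : IsPt A₀ R := by
  rcases h with ⟨x, y, h⟩ | ⟨h, -⟩ | ⟨h, -⟩
  · exact h.pt
  · exact h.pt
  · exact h.pt

/-- a product of elements `≡ 1` is `≡ 1`. -/
theorem prod_sub_one_mem_rad {A₀ : ValuationSubring K₀} {R : Subring F} (hR : IsPt A₀ R)
    {ι : Type*} (T : Finset ι) (f : ι → F) (h : ∀ i ∈ T, f i - 1 ∈ rad R) :
    ∏ i ∈ T, f i - 1 ∈ rad R := by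
  classical
  induction T using Finset.induction_on with
  | empty => simpa using zero_mem_rad R
  | insert i T hi ih =>
    rw [Finset.prod_insert hi]
    have h1 : Cr R (f i) 1 := h i (Finset.mem_insert_self i T)
    have h2 : Cr R (∏ j ∈ T, f j) 1 := ih fun j hj => h j (Finset.mem_insert_of_mem hj)
    have h3 := hR.cr_mul h1 h2 R.one_mem (h2.mem R.one_mem)
    rwa [mul_one] at h3

/-- normalisation: a unit of `R` lying in a subring `B ⊇ A₀` becomes `≡ 1` after multiplication by a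
unit constant. -/
theorem exists_const_normalise {A₀ : ValuationSubring K₀} {R : Subring F} (hR : IsPt A₀ R)
    {b : F} (hb : RUnit R b) :
    ∃ a : K₀, A₀.valuation a = 1 ∧ algebraMap K₀ F a * b - 1 ∈ rad R := by
  obtain ⟨a, ha, hab⟩ := hR.res b hb.mem
  have hu : RUnit R (algebraMap K₀ F a) := hR.runit_of_cr (Cr.symm hab) hb
  have hva : A₀.valuation a = 1 := by
    rcases lt_or_eq_of_le (mem_iff_val_le.1 ha) with hlt | heq
    · exact absurd hu (hR.const_rad a hlt).2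
    · exact heq
  refine ⟨a⁻¹, val_inv_eq_one hva, ?_⟩
  have ha0 : algebraMap K₀ F a ≠ 0 := hu.1
  have h1 : algebraMap K₀ F a⁻¹ * b - 1 = (algebraMap K₀ F a)⁻¹ * (b - algebraMap K₀ F a) := by
    rw [map_inv₀]
    field_simp
  rw [h1]
  exact mul_mem_rad hu.inv_mem hab

end Api

section Nodes

variable {K₀ F X : Type} [Field K₀] [Field F] [Algebra K₀ F]

theorem Ctx.isPt (C : Ctx K₀ F X) {R : Subring F} (hR : R ∈ C.Pts) : IsPt C.A₀ R :=
  (C.reg R hR).isPt

/-- two distinct points of a chart are separated by a function of the chart. -/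
theorem exists_sep_two {A₀ : ValuationSubring K₀} {B R R' : Subring F} (hR : IsPt A₀ R)
    (hR' : IsPt A₀ R') (hA : ∀ a ∈ A₀, algebraMap K₀ F a ∈ B)
    (hBR : (∀ b ∈ B, b ∈ R) ∧ ∀ r ∈ R, ∃ s ∈ B, RUnit R s ∧ s * r ∈ B)
    (hBR' : (∀ b ∈ B, b ∈ R') ∧ ∀ r ∈ R', ∃ s ∈ B, RUnit R' s ∧ s * r ∈ B) (hne : R' ≠ R) :
    ∃ b ∈ B, b ∈ rad R' ∧ RUnit R b := by
  by_contra hcon
  push Not at hcon
  -- `B ∩ rad R' ⊆ B ∩ rad R`
  have h1 : ∀ b ∈ B, b ∈ rad R' → b ∈ rad R := fun b hb hb' => ⟨hBR.1 b hb, hcon b hb hb'⟩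
  -- and conversely
  have h2 : ∀ b ∈ B, b ∈ rad R → b ∈ rad R' := by
    intro b hb hbR
    obtain ⟨a, ha, hab⟩ := hR'.res b (hBR'.1 b hb)
    have h3 : b - algebraMap K₀ F a ∈ rad R := h1 _ (B.sub_mem hb (hA a ha)) hab
    have h4 : algebraMap K₀ F a ∈ rad R := by
      have := hR.add_rad _ hbR _ (neg_mem_rad h3)
      simpa using this
    have h5 := hR'.const_rad a (hR.val_lt_one_of_const_mem_rad ha h4)
    have := hR'.add_rad _ hab _ h5
    simpa using this
  apply hne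
  ext r
  constructor
  · intro hr
    obtain ⟨s, hs, hsu, hsr⟩ := hBR'.2 r hr
    have hsR : RUnit R s := by
      rcases runit_or_mem_rad (hBR.1 s hs) with hu | hrad
      · exact hu
      · exact absurd hsu (h2 s hs hrad).2
    have : r = s⁻¹ * (s * r) := by
      have := hsu.1
      field_simp
    rw [this]
    exact R.mul_mem hsR.inv_mem (hBR.1 _ hsr)
  · intro hr
    obtain ⟨s, hs, hsu, hsr⟩ := hBR.2 r hr
    have hsR : RUnit R' s := by
      rcases runit_or_mem_rad (hBR'.1 s hs) with hu | hrad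
      · exact hu
      · exact absurd hsu (h1 s hs hrad).2
    have : r = s⁻¹ * (s * r) := by
      have := hsu.1
      field_simp
    rw [this]
    exact R'.mul_mem hsR.inv_mem (hBR'.1 _ hsr)

/-- **A1.** -/
theorem nodeSep : NodeSep := by
  classical
  intro K₀ F X _ _ _ C S hS R hRS
  obtain ⟨B, hA, -, hB⟩ := C.chart S hS
  have hR := C.isPt (hS R hRS)
  have key : ∀ R' : Subring F, ∃ b : F, R' ∈ S → R' ≠ R → b ∈ B ∧ b - 1 ∈ rad R ∧ b ∈ rad R' := by
    intro R'
    by_cases h : R' ∈ S ∧ R' ≠ R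
    · obtain ⟨b, hb, hbR', hbR⟩ := exists_sep_two hR (C.isPt (hS R' h.1)) hA (hB R hRS) (hB R' h.1) h.2
      obtain ⟨a, ha, hab⟩ := exists_const_normalise hR hbR
      have haB : algebraMap K₀ F a ∈ B := hA a (mem_iff_val_le.2 ha.le)
      exact ⟨algebraMap K₀ F a * b, fun _ _ => ⟨B.mul_mem haB hb, hab,
        mul_mem_rad ((hB R' h.1).1 _ haB) hbR'⟩⟩
    · exact ⟨0, fun h1 h2 => absurd ⟨h1, h2⟩ h⟩
  choose f hf using key
  have hfB : ∀ T : Finset (Subring F), T ⊆ S.erase R → ∏ R' ∈ T, f R' ∈ B := fun T hT =>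
    Subring.prod_mem B fun R' hR' =>
      (hf R' (Finset.mem_of_mem_erase (hT hR')) (Finset.ne_of_mem_erase (hT hR'))).1
  refine ⟨∏ R' ∈ S.erase R, f R', fun R' hR' => (hB R' hR').1 _ (hfB _ subset_rfl), ?_, ?_⟩
  · exact prod_sub_one_mem_rad hR _ _ fun R' hR' =>
      (hf R' (Finset.mem_of_mem_erase hR') (Finset.ne_of_mem_erase hR')).2.1
  · intro R' hR' hne
    rw [← Finset.mul_prod_erase (S.erase R) f (Finset.mem_erase.2 ⟨hne, hR'⟩), mul_comm]
    exact mul_mem_rad ((hB R' hR').1 _ (hfB _ (Finset.erase_subset _ _))) (hf R' hR' hne).2.2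

/-- **A2.** -/
theorem nodeAway : NodeAway := by
  intro K₀ F X _ _ _ C S hS R hRS c hc
  obtain ⟨B, hA, hV, hB⟩ := C.chart S hS
  have hR := C.isPt (hS R hRS)
  obtain ⟨e₀, he₀, hval⟩ := hc
  obtain ⟨s, hs, hsu, hse⟩ := (hB R hRS).2 e₀ he₀.mem
  obtain ⟨a, ha, hab⟩ := exists_const_normalise hR (hsu.mul he₀)
  have haB : algebraMap K₀ F a ∈ B := hA a (mem_iff_val_le.2 ha.le)
  refine ⟨algebraMap K₀ F a * (s * e₀), fun R' hR' => (hB R' hR').1 _ (B.mul_mem haB hse), hab, ?_⟩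
  rw [map_mul, map_mul]
  have h1 : (C.V c).valuation (algebraMap K₀ F a) ≤ 1 := mem_iff_val_le.1 (hV c _ haB)
  have h2 : (C.V c).valuation s ≤ 1 := mem_iff_val_le.1 (hV c _ hs)
  exact mul_lt_one_of_nonneg_of_lt_one_right h1 zero_le
    (mul_lt_one_of_nonneg_of_lt_one_right h2 zero_le hval)

end Nodes

end Fermat.Agent.S43.E0.O

end
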