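/-
Row 37 (S43), block E0/O, abstract layer (contract of helper98; proofs helper186).
**A4** `NodeKill`: a function `= 1` at `R`, regular on `S`, vanishing at a geometric point centred at another point.
-/
import Fermat.Agent.S43.E0.O.Abs.Sep

set_option autoImplicit false

noncomputable section

namespace Fermat.Agent.S43.E0.O

open Polynomial Fermat.Agent.S18 Fermat.Agent.S36.BP Fermat.Agent.S44

section Api

variable {K₀ F : Type*} [Field K₀] [Field F] [Algebra K₀ F]

theorem sum_mem_rad {A₀ : ValuationSubring K₀} {R : Subring F} (hR : IsPt A₀ R)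
    {ι : Type*} (T : Finset ι) (f : ι → F) (h : ∀ i ∈ T, f i ∈ rad R) :
    ∑ i ∈ T, f i ∈ rad R := by
  classical
  induction T using Finset.induction_on with
  | empty => simpa using zero_mem_rad R
  | insert i T hi ih =>
    rw [Finset.sum_insert hi]
    exact hR.add_rad _ (h i (Finset.mem_insert_self i T)) _
      (ih fun j hj => h j (Finset.mem_insert_of_mem hj))

/-- the value at `e` of a monic polynomial `≡ T ^ d` -/
theorem aeval_eq_of_monic (μ : K₀[X]) (hμ : μ.Monic) (e : F) :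
    aeval e μ = ∑ i ∈ Finset.range μ.natDegree, algebraMap K₀ F (μ.coeff i) * e ^ i +
      e ^ μ.natDegree := by
  rw [aeval_eq_sum_range, Finset.sum_range_succ, hμ.coeff_natDegree, one_smul]
  simp only [Algebra.smul_def]

theorem aeval_mem {A₀ : ValuationSubring K₀} {R : Subring F} (hR : IsPt A₀ R) (μ : K₀[X])
    (hμ : μ.Monic) (hc : ∀ i < μ.natDegree, A₀.valuation (μ.coeff i) < 1) {e : F} (he : e ∈ R) :
    aeval e μ ∈ R := by
  rw [aeval_eq_of_monic μ hμ]
  refine R.add_mem (Subring.sum_mem R fun i hi => ?_) (R.pow_mem he _)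
  exact R.mul_mem (hR.const_mem _ (mem_iff_val_le.2 (hc i (Finset.mem_range.1 hi)).le))
    (R.pow_mem he _)

theorem aeval_sub_one_mem_rad {A₀ : ValuationSubring K₀} {R : Subring F} (hR : IsPt A₀ R)
    (μ : K₀[X]) (hμ : μ.Monic) (hc : ∀ i < μ.natDegree, A₀.valuation (μ.coeff i) < 1) {e : F}
    (he : e - 1 ∈ rad R) : aeval e μ - 1 ∈ rad R := by
  have he' : Cr R e 1 := he
  have heR : e ∈ R := he'.mem R.one_mem
  rw [aeval_eq_of_monic μ hμ, add_sub_assoc]
  refine hR.add_rad _ (sum_mem_rad hR _ _ fun i hi => ?_) _ ?_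
  · rw [mul_comm]
    exact mul_mem_rad (R.pow_mem heR _) (hR.const_rad _ (hc i (Finset.mem_range.1 hi)))
  · have := hR.cr_pow he' R.one_mem μ.natDegree
    rwa [one_pow] at this

end Api

/-- **A4.** -/
theorem nodeKill : NodeKill := by
  intro K₀ F X _ _ _ C S hS R hRS R' hR'S hne P hP
  obtain ⟨e₀, he₀mem, he₀1, he₀rad⟩ := nodeSep K₀ F X C S hS R hRS
  obtain ⟨μ, hμ, hcoef, hval⟩ := C.geo.kill P R' hP e₀ (he₀rad R' hR'S hne)
  exact ⟨aeval e₀ μ, fun R'' hR'' => aeval_mem (C.isPt (hS R'' hR'')) μ hμ hcoef (he₀mem R'' hR''),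
    aeval_sub_one_mem_rad (C.isPt (hS R hRS)) μ hμ hcoef he₀1, hval⟩

end Fermat.Agent.S43.E0.O

end
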