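/-
Row 37 (S43), block E0/O, abstract layer (contract of helper98; proofs helper186).
**A5** `NodeClear` (from **A3** `NodeMem`): clearing the poles of `f` at `R'` by a function `= 1` at `R`.
-/
import Fermat.Agent.S43.E0.O.Abs.Kill
import Fermat.Agent.S18.Chart.Unif

set_option autoImplicit false

noncomputable section

namespace Fermat.Agent.S43.E0.O

open Polynomial Fermat.Agent.S18 Fermat.Agent.S36.BP Fermat.Agent.S44

section Api

variable {K₀ F : Type*} [Field K₀] [Field F] [Algebra K₀ F]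

/-- a high power of a function vanishing along a discrete valuation clears the pole of `f`. -/
theorem exists_pow_mul_mem {V : ValuationSubring F} {ϖ : F} (h : IsUnif V ϖ) {e : F}
    (he : V.valuation e < 1) (f : F) : ∃ m : ℕ, e ^ m * f ∈ V := by
  rcases eq_or_ne e 0 with rfl | he0
  · exact ⟨1, by rw [pow_one, zero_mul]; exact V.zero_mem⟩
  obtain ⟨r, hr⟩ := h.exists_pow_mul_mem f
  have h1 : e / ϖ ∈ V := by
    refine h.div_mem (mem_iff_val_le.2 he.le) fun hinv => ?_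
    have h2 := mem_iff_val_le.1 hinv
    rw [map_inv₀] at h2
    have h3 : (1 : _) ≤ V.valuation e := by
      have hne : V.valuation e ≠ 0 := (Valuation.ne_zero_iff _).2 he0
      exact (inv_le_one₀ (zero_lt_iff.2 hne)).1 h2
    exact absurd he (not_lt.2 h3)
  refine ⟨r, ?_⟩
  have h2 : e ^ r * f = (e / ϖ) ^ r * (ϖ ^ r * f) := by
    have := h.ne_zero
    rw [div_pow]
    field_simp
  rw [h2]
  exact V.mul_mem _ _ (V.pow_mem h1 r) hr

theorem not_through_of_away {R : Subring F} {V : ValuationSubring F} (h : Away R V) :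
    ¬ Through R V := by
  obtain ⟨e, he, hv⟩ := h
  intro ht
  rw [he.val_eq_one ht.le] at hv
  exact lt_irrefl _ hv

theorem IsRegP.unif {A₀ : ValuationSubring K₀} {q : ℕ} {V : Fin 2 → ValuationSubring F}
    {R : Subring F} (h : IsRegP A₀ q V R) (c : Fin 2) (hc : Through R (V c)) :
    IsUnif (V c) (q : F) := by
  rcases h with ⟨x, y, h⟩ | ⟨h, ha⟩ | ⟨h, ha⟩
  · fin_cases c
    · exact h.unif_a
    · exact h.unif_b
  · fin_cases c
    · exact h.unif
    · exact absurd hc (not_through_of_away ha)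
  · fin_cases c
    · exact absurd hc (not_through_of_away ha)
    · exact h.unif

theorem IsRegP.through_or_away {A₀ : ValuationSubring K₀} {q : ℕ}
    {V : Fin 2 → ValuationSubring F} {R : Subring F} (h : IsRegP A₀ q V R) (c : Fin 2) :
    Through R (V c) ∨ Away R (V c) := by
  rcases h with ⟨x, y, h⟩ | ⟨h, ha⟩ | ⟨h, ha⟩
  · fin_cases c
    · exact Or.inl h.thr_a
    · exact Or.inl h.thr_b
  · fin_cases c
    · exact Or.inl h.thr
    · exact Or.inr ha
  · fin_cases c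
    · exact Or.inr ha
    · exact Or.inl h.thr

theorem prod_mul_mem {W : ValuationSubring F} {ι : Type*} [DecidableEq ι] (T : Finset ι)
    (g : ι → F) (hg : ∀ i ∈ T, g i ∈ W) {i₀ : ι} (hi₀ : i₀ ∈ T) {f : F} (h : g i₀ * f ∈ W) :
    (∏ i ∈ T, g i) * f ∈ W := by
  rw [← Finset.mul_prod_erase T g hi₀, mul_right_comm]
  exact W.mul_mem _ _ h (Subring.prod_mem W.toSubring fun i hi => hg i (Finset.mem_of_mem_erase hi))

end Api

/-- **A5** (from **A3**). -/
theorem nodeClear (hMem : NodeMem) : NodeClear := by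
  classical
  intro K₀ F X _ _ _ C S hS R hRS R' hR'S hne f hf hvert
  have hR := C.isPt (hS R hRS)
  -- horizontal poles
  have keyP : ∀ P : X, ∃ g : F, C.Cen P R' →
      ((∀ R'' ∈ S, g ∈ R'') ∧ g - 1 ∈ rad R ∧ g * f ∈ C.Hv P) := by
    intro P
    by_cases hP : C.Cen P R'
    · obtain ⟨e, he, he1, hev⟩ := nodeKill K₀ F X C S hS R hRS R' hR'S hne P hP
      obtain ⟨ϖ, hϖ⟩ := C.geo.disc P
      obtain ⟨m, hm⟩ := exists_pow_mul_mem hϖ hev f
      refine ⟨e ^ m, fun _ => ⟨fun R'' hR'' => R''.pow_mem (he R'' hR'') m, ?_, hm⟩⟩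
      have := hR.cr_pow (show Cr R e 1 from he1) R.one_mem m
      rwa [one_pow] at this
    · exact ⟨0, fun h => absurd h hP⟩
  choose gP hgP using keyP
  -- vertical poles
  have keyV : ∀ c : Fin 2, ∃ g : F, Through R' (C.V c) → f ∉ C.V c →
      ((∀ R'' ∈ S, g ∈ R'') ∧ g - 1 ∈ rad R ∧ g * f ∈ C.V c) := by
    intro c
    by_cases hc : Through R' (C.V c) ∧ f ∉ C.V c
    · have haway : Away R (C.V c) := (hvert c hc.1).resolve_left hc.2
      obtain ⟨e, he, he1, hev⟩ := nodeAway K₀ F X C S hS R hRS c haway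
      obtain ⟨m, hm⟩ := exists_pow_mul_mem ((C.reg R' (hS R' hR'S)).unif c hc.1) hev f
      refine ⟨e ^ m, fun _ _ => ⟨fun R'' hR'' => R''.pow_mem (he R'' hR'') m, ?_, hm⟩⟩
      have := hR.cr_pow (show Cr R e 1 from he1) R.one_mem m
      rwa [one_pow] at this
    · exact ⟨0, fun h1 h2 => absurd ⟨h1, h2⟩ hc⟩
  choose gV hgV using keyV
  have hfin : {P | f ∉ C.Hv P}.Finite := C.geo.fin f hf
  set TP : Finset X := hfin.toFinset.filter (fun P => C.Cen P R') with hTP
  set TV : Finset (Fin 2) := Finset.univ.filter (fun c => Through R' (C.V c) ∧ f ∉ C.V c) with hTV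
  have hmemP : ∀ P ∈ TP, C.Cen P R' := fun P hP => (Finset.mem_filter.1 hP).2
  have hmemV : ∀ c ∈ TV, Through R' (C.V c) ∧ f ∉ C.V c := fun c hc => (Finset.mem_filter.1 hc).2
  have hb1 : ∀ R'' ∈ S, ∏ P ∈ TP, gP P ∈ R'' := fun R'' hR'' =>
    Subring.prod_mem R'' fun P hP => (hgP P (hmemP P hP)).1 R'' hR''
  have hb2 : ∀ R'' ∈ S, ∏ c ∈ TV, gV c ∈ R'' := fun R'' hR'' =>
    Subring.prod_mem R'' fun c hc => (hgV c (hmemV c hc).1 (hmemV c hc).2).1 R'' hR''
  refine ⟨(∏ P ∈ TP, gP P) * ∏ c ∈ TV, gV c, fun R'' hR'' => R''.mul_mem (hb1 R'' hR'') (hb2 R'' hR''),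
    ?_, ?_⟩
  · have h1 : Cr R (∏ P ∈ TP, gP P) 1 :=
      prod_sub_one_mem_rad hR _ _ fun P hP => (hgP P (hmemP P hP)).2.1
    have h2 : Cr R (∏ c ∈ TV, gV c) 1 :=
      prod_sub_one_mem_rad hR _ _ fun c hc => (hgV c (hmemV c hc).1 (hmemV c hc).2).2.1
    have h3 := hR.cr_mul h1 h2 R.one_mem (h2.mem R.one_mem)
    rwa [mul_one] at h3
  · refine hMem K₀ F C.A₀ C.q C.V R' C.base.unif (C.reg R' (hS R' hR'S)) _ ?_ ?_
    · intro c hc
      by_cases hfc : f ∈ C.V c
      · exact (C.V c).mul_mem _ _ (hc.le _ (R'.mul_mem (hb1 R' hR'S) (hb2 R' hR'S))) hfc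
      · rw [mul_assoc]
        refine (C.V c).mul_mem _ _ (hc.le _ (hb1 R' hR'S)) ?_
        exact prod_mul_mem TV gV
          (fun c' hc' => hc.le _ ((hgV c' (hmemV c' hc').1 (hmemV c' hc').2).1 R' hR'S))
          (Finset.mem_filter.2 ⟨Finset.mem_univ c, hc, hfc⟩) (hgV c hc hfc).2.2
    · intro W hW hRW
      by_cases htop : W = ⊤
      · rw [htop]
        exact ValuationSubring.mem_top _
      obtain ⟨P, hP, rfl⟩ := C.geo.cover R' (hS R' hR'S) W hW hRW htop
      by_cases hfP : f ∈ C.Hv P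
      · exact (C.Hv P).mul_mem _ _ (hRW _ (R'.mul_mem (hb1 R' hR'S) (hb2 R' hR'S))) hfP
      · rw [mul_comm (∏ P ∈ TP, gP P), mul_assoc]
        refine (C.Hv P).mul_mem _ _ (hRW _ (hb2 R' hR'S)) ?_
        exact prod_mul_mem TP gP (fun P' hP' => hRW _ ((hgP P' (hmemP P' hP')).1 R' hR'S))
          (Finset.mem_filter.2 ⟨hfin.mem_toFinset.2 hfP, hP⟩) (hgP P hP).2.2

end Fermat.Agent.S43.E0.O

end
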