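/-
Row 37 (S43), block E0/O, abstract layer (contract of helper98; proofs helper186).
**A6** `NodeGlue` (from **A5** `NodeClear`): gluing local functions up to `1 + rad R`.
-/
import Fermat.Agent.S43.E0.O.Abs.Clear

set_option autoImplicit false

noncomputable section

namespace Fermat.Agent.S43.E0.O

open Polynomial Fermat.Agent.S18 Fermat.Agent.S36.BP Fermat.Agent.S44

theorem prod_mul_mem_subring {F : Type*} [Field F] {W : Subring F} {ι : Type*} [DecidableEq ι]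
    (T : Finset ι) (g : ι → F) (hg : ∀ i ∈ T, g i ∈ W) {i₀ : ι} (hi₀ : i₀ ∈ T) {f : F}
    (h : g i₀ * f ∈ W) : (∏ i ∈ T, g i) * f ∈ W := by
  rw [← Finset.mul_prod_erase T g hi₀, mul_right_comm]
  exact W.mul_mem h (Subring.prod_mem W fun i hi => hg i (Finset.mem_of_mem_erase hi))

/-- **A6** (from **A5**). -/
theorem nodeGlue (hClear : NodeClear) : NodeGlue := by
  classical
  intro K₀ F X _ _ _ C S hS t ht hval
  rcases S.eq_empty_or_nonempty with rfl | ⟨R₁, hR₁⟩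
  · exact ⟨1, one_ne_zero, fun R hR => absurd hR (Finset.notMem_empty R)⟩
  -- the idempotents
  have keyE : ∀ R : Subring F, ∃ e : F, R ∈ S → ((∀ R' ∈ S, e ∈ R') ∧ e - 1 ∈ rad R ∧
      ∀ R' ∈ S, R' ≠ R → e ∈ rad R') := by
    intro R
    by_cases hR : R ∈ S
    · obtain ⟨e, he⟩ := nodeSep K₀ F X C S hS R hR
      exact ⟨e, fun _ => he⟩
    · exact ⟨0, fun h => absurd h hR⟩
  choose e he using keyE
  -- the pole killers
  have keyB : ∀ R R' : Subring F, ∃ b : F, R ∈ S → R' ∈ S → R' ≠ R →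
      ((∀ R'' ∈ S, b ∈ R'') ∧ b - 1 ∈ rad R ∧ b * (t R / t R') ∈ R') := by
    intro R R'
    by_cases h : R ∈ S ∧ R' ∈ S ∧ R' ≠ R
    · obtain ⟨hR, hR', hne⟩ := h
      obtain ⟨b, hb⟩ := hClear K₀ F X C S hS R hR R' hR' hne (t R / t R')
        (div_ne_zero (ht R hR) (ht R' hR')) (fun c hc => by
          rcases (C.reg R (hS R hR)).through_or_away c with h1 | h1
          · exact Or.inl (mem_iff_val_le.2 (val_div_eq_one (hval R hR c h1) (hval R' hR' c hc)).le)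
          · exact Or.inr h1)
      exact ⟨b, fun _ _ _ => hb⟩
    · exact ⟨0, fun h1 h2 h3 => absurd ⟨h1, h2, h3⟩ h⟩
  choose b hb using keyB
  set β : Subring F → F := fun R => ∏ R' ∈ S.erase R, b R R' with hβ
  have hβmem : ∀ R ∈ S, ∀ R'' ∈ S, β R ∈ R'' := fun R hR R'' hR'' =>
    Subring.prod_mem R'' fun R' hR' =>
      (hb R R' hR (Finset.mem_of_mem_erase hR') (Finset.ne_of_mem_erase hR')).1 R'' hR''
  have hβ1 : ∀ R ∈ S, β R - 1 ∈ rad R := fun R hR =>
    prod_sub_one_mem_rad (C.isPt (hS R hR)) _ _ fun R' hR' =>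
      (hb R R' hR (Finset.mem_of_mem_erase hR') (Finset.ne_of_mem_erase hR')).2.1
  have hβt : ∀ R ∈ S, ∀ R' ∈ S, R' ≠ R → β R * (t R / t R') ∈ R' := fun R hR R' hR' hne =>
    prod_mul_mem_subring (S.erase R) (b R)
      (fun R'' hR'' =>
        (hb R R'' hR (Finset.mem_of_mem_erase hR'') (Finset.ne_of_mem_erase hR'')).1 R' hR')
      (Finset.mem_erase.2 ⟨hne, hR'⟩) (hb R R' hR hR' hne).2.2
  have main : ∀ R₀ ∈ S, (∑ R ∈ S, e R * β R * t R) / t R₀ - 1 ∈ rad R₀ := by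
    intro R₀ hR₀
    have hP := C.isPt (hS R₀ hR₀)
    rw [Finset.sum_div, ← Finset.add_sum_erase S _ hR₀, add_sub_right_comm]
    refine hP.add_rad _ ?_ _ (sum_mem_rad hP _ _ fun R hR => ?_)
    · rw [mul_div_assoc, div_self (ht R₀ hR₀), mul_one]
      have h1 : Cr R₀ (e R₀) 1 := (he R₀ hR₀).2.1
      have h2 : Cr R₀ (β R₀) 1 := hβ1 R₀ hR₀
      have h3 := hP.cr_mul h1 h2 R₀.one_mem (h2.mem R₀.one_mem)
      rwa [mul_one] at h3
    · have hRS := Finset.mem_of_mem_erase hR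
      have hne : R₀ ≠ R := (Finset.ne_of_mem_erase hR).symm
      rw [mul_div_assoc, mul_assoc, mul_comm]
      exact mul_mem_rad (hβt R hRS R₀ hR₀ hne) ((he R hRS).2.2 R₀ hR₀ hne)
  refine ⟨∑ R ∈ S, e R * β R * t R, fun h0 => ?_, main⟩
  have h1 := main R₁ hR₁
  rw [h0, zero_div, zero_sub] at h1
  exact h1.2 (RUnit.one R₁).neg

end Fermat.Agent.S43.E0.O

end
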